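import Mathlib
import Fermat.Agent.G.S37.Pull
import Fermat.Agent.G.Asm.HeckeGalois
import Fermat.Agent.G.FF.Main

/-!
# S35 (zero-regret prework), top wiring, part 1: the `q`-new subgroup `J^new ⊆ J₀(M)(ℚ̄)`  (helper2)

* `s35asmPushBeta N a : JZero (N * a) →+ JZero N` : the push-forward `φ_*` of divisor classes along
  `heckeBetaBar ℚ̄ N a` (`f(t) ↦ f(t^a)`); the push-forward `α_*` along `heckeAlphaBar` is main's
  `g37pPush N a` (`G/S37/Pull.lean`);
* `s35asm_pushAlpha_galois`, `s35asm_pushBeta_galois` : both commute with `Gal(ℚ̄/ℚ)`;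
* `s35asmCast (h : M = M') : JZero M ≃+ JZero M'` (transport along an equality of levels) and its
  compatibility with the Galois action;
* `s35asmNewAt M' q = ker α_* ⊓ ker φ_* ≤ JZero (M' * q)` and
  `s35asmNew M = ⨅_{M = M' * q, q prime, q ∤ M'} (s35asmNewAt M' q).comap cast ≤ JZero M`,
  stable under `Gal(ℚ̄/ℚ)` (`s35asm_new_smul_mem`); the induced action `s35asmNewAction`.
-/

set_option autoImplicit false
set_option linter.unusedSectionVars false
set_option linter.unusedVariables false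
set_option synthInstance.maxHeartbeats 400000
set_option linter.style.haveILetI false

noncomputable section

namespace Fermat.Agent.G

open ModularCurve AlgebraicCurve Fermat.Agent.S24

local notation "Qb" => AlgebraicClosure ℚ
local notation "GQ" => (AlgebraicClosure ℚ ≃ₐ[ℚ] AlgebraicClosure ℚ)

/-! ### generic: the push-forward of classes is equivariant -/

section Along

variable {K F F' : Type*} [Field K] [Field F] [Field F'] [Algebra K F] [Algebra K F']
  (φ : F →ₐ[K] F') (hφ : φ.toRingHom.IsIntegral)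
  {g : SemilinearAut K F} {g' : SemilinearAut K F'}

theorem s35asm_pushAlong_smul (hfin : FiniteAlong K φ) (hN : NormFormulaAlong K φ hfin)
    (h : SemilinearAut.IntertwinesAlong φ.toRingHom g g') (x : Pic0 K F') :
    g37pPushAlong φ hφ hfin hN (g' • x) = g • g37pPushAlong φ hφ hfin hN x := by
  obtain ⟨D, rfl⟩ := Pic0.mk_surjective x
  rw [SemilinearAut.pic0_smul_mk, g37pPushAlong_mk, g37pPushAlong_mk,
    SemilinearAut.pic0_smul_mk]
  refine congrArg Pic0.mk (Subtype.ext ?_)
  rw [coe_g37pDegZeroPush, SemilinearAut.coe_degZeroSMulHom,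
    SemilinearAut.coe_degZeroSMulHom, coe_g37pDegZeroPush]
  exact gasmhg_pushforwardAlong_smul φ hφ h D

end Along

/-! ### the two push-forwards `J₀(N a) → J₀(N)` -/

section Modular

variable (N a : ℕ) [NeZero N] [NeZero a]

theorem s35asm_beta_normFormula :
    NormFormulaAlong Qb (heckeBetaBar Qb N a) (gff_beta_finite N a) :=
  gffa_along_normFormula (heckeBetaBar Qb N a) (gff_beta_finite N a) (isSepGen_jBar N)

/-- THE SECOND DEGENERACY PUSHFORWARD `φ_{a,*} : J₀(N a) → J₀(N)` (along `f(t) ↦ f(t^a)`). -/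
def s35asmPushBeta : JZero (N * a) →+ JZero N :=
  g37pPushAlong (heckeBetaBar Qb N a) (gff_beta_integral N a) (gff_beta_finite N a)
    (s35asm_beta_normFormula N a)

/-- `α_*` commutes with the Galois action. -/
theorem s35asm_pushAlpha_galois (σ : GQ) (x : JZero (N * a)) :
    g37pPush N a (σ • x) = σ • g37pPush N a x := by
  rw [galois_smul_pic0_def, galois_smul_pic0_def]
  exact s35asm_pushAlong_smul (heckeAlphaBar Qb N a) (gff_alpha_integral N a)
    (gff_alpha_finite N a) (g37p_alpha_normFormula N a) (gasmhg_alpha_intertwines N a σ) x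

/-- `φ_*` commutes with the Galois action. -/
theorem s35asm_pushBeta_galois (σ : GQ) (x : JZero (N * a)) :
    s35asmPushBeta N a (σ • x) = σ • s35asmPushBeta N a x := by
  rw [galois_smul_pic0_def, galois_smul_pic0_def]
  exact s35asm_pushAlong_smul (heckeBetaBar Qb N a) (gff_beta_integral N a)
    (gff_beta_finite N a) (s35asm_beta_normFormula N a) (gasmhg_beta_intertwines N a σ) x

/-- the classes of level `N a` killed by both push-forwards to level `N`. -/
def s35asmNewAt : AddSubgroup (JZero (N * a)) :=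
  (g37pPush N a).ker ⊓ (s35asmPushBeta N a).ker

theorem mem_s35asmNewAt {x : JZero (N * a)} :
    x ∈ s35asmNewAt N a ↔ g37pPush N a x = 0 ∧ s35asmPushBeta N a x = 0 := by
  rw [s35asmNewAt, AddSubgroup.mem_inf, AddMonoidHom.mem_ker, AddMonoidHom.mem_ker]

theorem s35asm_newAt_smul_mem (σ : GQ) {x : JZero (N * a)} (hx : x ∈ s35asmNewAt N a) :
    σ • x ∈ s35asmNewAt N a := by
  rw [mem_s35asmNewAt] at hx ⊢
  rw [s35asm_pushAlpha_galois, s35asm_pushBeta_galois, hx.1, hx.2]
  have h0 : σ • (0 : JZero N) = 0 :=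
    (inferInstance : DistribMulAction GQ (JZero N)).smul_zero σ
  exact ⟨h0, h0⟩

end Modular

/-! ### transport along an equality of levels -/

/-- transport of classes along an equality of levels. -/
def s35asmCast {M M' : ℕ} (h : M = M') : JZero M ≃+ JZero M' :=
  h ▸ AddEquiv.refl (JZero M)

@[simp] theorem s35asmCast_rfl (M : ℕ) (x : JZero M) : s35asmCast (rfl : M = M) x = x := rfl

theorem s35asmCast_smul {M M' : ℕ} (h : M = M') (σ : GQ) (x : JZero M) :
    s35asmCast h (σ • x) = σ • s35asmCast h x := by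
  subst h
  rfl

/-! ### the new subgroup -/

/-- the `q`-new classes of level `M`, for all primes `q ‖ M` at once: for every factorisation
`M = M' * q` with `q` prime, `q ∤ M'`, both push-forwards to level `M'` vanish. -/
def s35asmNew (M : ℕ) : AddSubgroup (JZero M) :=
  ⨅ (M' : ℕ) (q : ℕ) (h : M = M' * q) (hq : q.Prime) (hM' : M' ≠ 0) (_ : ¬ q ∣ M'),
    haveI : NeZero M' := ⟨hM'⟩
    haveI : NeZero q := ⟨hq.ne_zero⟩
    (s35asmNewAt M' q).comap (s35asmCast h).toAddMonoidHom

theorem mem_s35asmNew {M : ℕ} {x : JZero M} :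
    x ∈ s35asmNew M ↔ ∀ (M' q : ℕ) (h : M = M' * q) (hq : q.Prime) (hM' : M' ≠ 0)
      (_ : ¬ q ∣ M'),
      haveI : NeZero M' := ⟨hM'⟩
      haveI : NeZero q := ⟨hq.ne_zero⟩
      s35asmCast h x ∈ s35asmNewAt M' q := by
  simp only [s35asmNew, AddSubgroup.mem_iInf, AddSubgroup.mem_comap]
  rfl

theorem s35asm_new_smul_mem {M : ℕ} (σ : GQ) {x : JZero M} (hx : x ∈ s35asmNew M) :
    σ • x ∈ s35asmNew M := by
  rw [mem_s35asmNew] at hx ⊢
  intro M' q h hq hM' hqM'
  haveI : NeZero M' := ⟨hM'⟩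
  haveI : NeZero q := ⟨hq.ne_zero⟩
  rw [s35asmCast_smul]
  exact s35asm_newAt_smul_mem M' q σ (hx M' q h hq hM' hqM')

/-- the Galois action on the new subgroup. -/
instance s35asmNewAction (M : ℕ) : DistribMulAction GQ (s35asmNew M) where
  smul σ x := ⟨σ • (x : JZero M), s35asm_new_smul_mem σ x.2⟩
  one_smul x := Subtype.ext (one_smul GQ (x : JZero M))
  mul_smul σ τ x := Subtype.ext (mul_smul σ τ (x : JZero M))
  smul_zero σ := Subtype.ext (smul_zero σ)
  smul_add σ x y := Subtype.ext (smul_add σ (x : JZero M) (y : JZero M))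

theorem s35asmNewAction_coe (M : ℕ) (σ : GQ) (x : s35asmNew M) :
    ((σ • x : s35asmNew M) : JZero M) = σ • (x : JZero M) := rfl

/-! ### the new subgroup for a general set of factorisations (for S36: `q² ‖ M`) -/

/-- the classes of level `M` killed by both push-forwards to level `M'` for every factorisation
`M = M' * q` (`q` prime, `M' ≠ 0`) satisfying `P M' q`. -/
def s35asmNewP (P : ℕ → ℕ → Prop) (M : ℕ) : AddSubgroup (JZero M) :=
  ⨅ (M' : ℕ) (q : ℕ) (h : M = M' * q) (hq : q.Prime) (hM' : M' ≠ 0) (_ : P M' q),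
    haveI : NeZero M' := ⟨hM'⟩
    haveI : NeZero q := ⟨hq.ne_zero⟩
    (s35asmNewAt M' q).comap (s35asmCast h).toAddMonoidHom

theorem mem_s35asmNewP {P : ℕ → ℕ → Prop} {M : ℕ} {x : JZero M} :
    x ∈ s35asmNewP P M ↔ ∀ (M' q : ℕ) (h : M = M' * q) (hq : q.Prime) (hM' : M' ≠ 0)
      (_ : P M' q),
      haveI : NeZero M' := ⟨hM'⟩
      haveI : NeZero q := ⟨hq.ne_zero⟩
      s35asmCast h x ∈ s35asmNewAt M' q := by
  simp only [s35asmNewP, AddSubgroup.mem_iInf, AddSubgroup.mem_comap]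
  rfl

theorem s35asm_newP_smul_mem {P : ℕ → ℕ → Prop} {M : ℕ} (σ : GQ) {x : JZero M}
    (hx : x ∈ s35asmNewP P M) : σ • x ∈ s35asmNewP P M := by
  rw [mem_s35asmNewP] at hx ⊢
  intro M' q h hq hM' hP
  haveI : NeZero M' := ⟨hM'⟩
  haveI : NeZero q := ⟨hq.ne_zero⟩
  rw [s35asmCast_smul]
  exact s35asm_newAt_smul_mem M' q σ (hx M' q h hq hM' hP)

theorem s35asmNew_eq_newP (M : ℕ) : s35asmNew M = s35asmNewP (fun M' q => ¬ q ∣ M') M := rfl

/-! ### Hecke saturation of a Galois-stable subgroup (helper7's trick: NO `α_* T_ℓ = T_ℓ α_*`) -/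

section Saturated

variable (M : ℕ) [NeZero M] (S : Finset ℕ)

/-- the good primes away from `S` -/
abbrev S35asmIdx : Type := {ℓ : ℕ // ℓ.Prime ∧ ¬ ℓ ∣ M ∧ ℓ ∉ (↑S : Set ℕ)}

/-- the Hecke operator `T_i` on `J₀(M)(ℚ̄)` as an additive map -/
def s35asmTJ (i : S35asmIdx M S) : JZero M →+ JZero M :=
  (heckeOperatorBar M ⟨i.1, i.2.1⟩ : JZero M →ₗ[ℤ] JZero M).toAddMonoidHom

theorem s35asmTJ_apply (i : S35asmIdx M S) (x : JZero M) :
    s35asmTJ M S i x = heckeOperatorBar M ⟨i.1, i.2.1⟩ x := rfl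

/-- the word `T_{i₁} ∘ ⋯ ∘ T_{i_k}` -/
def s35asmTW : List (S35asmIdx M S) → (JZero M →+ JZero M)
  | [] => AddMonoidHom.id _
  | i :: w => (s35asmTJ M S i).comp (s35asmTW w)

@[simp] theorem s35asmTW_nil (x : JZero M) : s35asmTW M S [] x = x := rfl

@[simp] theorem s35asmTW_cons (i : S35asmIdx M S) (w : List (S35asmIdx M S)) (x : JZero M) :
    s35asmTW M S (i :: w) x = s35asmTJ M S i (s35asmTW M S w x) := rfl

theorem s35asmTW_append (w w' : List (S35asmIdx M S)) (x : JZero M) :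
    s35asmTW M S (w ++ w') x = s35asmTW M S w (s35asmTW M S w' x) := by
  induction w with
  | nil => rfl
  | cons i w ih => rw [List.cons_append, s35asmTW_cons, s35asmTW_cons, ih]

theorem s35asmTW_smul (w : List (S35asmIdx M S)) (σ : GQ) (x : JZero M) :
    s35asmTW M S w (σ • x) = σ • s35asmTW M S w x := by
  induction w with
  | nil => rfl
  | cons i w ih =>
    rw [s35asmTW_cons, s35asmTW_cons, ih, s35asmTJ_apply, s35asmTJ_apply]
    exact (gasm_hecke_galois M ⟨i.1, i.2.1⟩ σ _).symm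

/-- **the Hecke saturation** of a subgroup `K₀`: the classes all of whose Hecke translates (words in
the `T_ℓ`, `ℓ ∤ M`, `ℓ ∉ S`) lie in `K₀`. -/
def s35asmSatSub (K₀ : AddSubgroup (JZero M)) : AddSubgroup (JZero M) :=
  ⨅ w : List (S35asmIdx M S), K₀.comap (s35asmTW M S w)

variable {M S} {K₀ : AddSubgroup (JZero M)}

theorem mem_s35asmSatSub {x : JZero M} :
    x ∈ s35asmSatSub M S K₀ ↔ ∀ w : List (S35asmIdx M S), s35asmTW M S w x ∈ K₀ := by
  simp only [s35asmSatSub, AddSubgroup.mem_iInf, AddSubgroup.mem_comap]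

theorem s35asm_satSub_le : s35asmSatSub M S K₀ ≤ K₀ := fun x hx =>
  (mem_s35asmSatSub.mp hx) []

theorem s35asm_satSub_hecke_mem (i : S35asmIdx M S) {x : JZero M}
    (hx : x ∈ s35asmSatSub M S K₀) : s35asmTJ M S i x ∈ s35asmSatSub M S K₀ := by
  rw [mem_s35asmSatSub] at hx ⊢
  intro w
  have := hx (w ++ [i])
  rwa [s35asmTW_append] at this

theorem s35asm_satSub_smul_mem (hK₀ : ∀ (σ : GQ) (x : JZero M), x ∈ K₀ → σ • x ∈ K₀) (σ : GQ)
    {x : JZero M} (hx : x ∈ s35asmSatSub M S K₀) : σ • x ∈ s35asmSatSub M S K₀ := by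
  rw [mem_s35asmSatSub] at hx ⊢
  intro w
  rw [s35asmTW_smul]
  exact hK₀ σ _ (hx w)

variable (M S K₀)

/-- the Galois action on the Hecke saturation of a Galois-stable subgroup. -/
@[reducible] def s35asmSatAction (hK₀ : ∀ (σ : GQ) (x : JZero M), x ∈ K₀ → σ • x ∈ K₀) :
    DistribMulAction GQ (s35asmSatSub M S K₀) where
  smul σ x := ⟨σ • (x : JZero M), s35asm_satSub_smul_mem hK₀ σ x.2⟩
  one_smul x := Subtype.ext (one_smul GQ (x : JZero M))
  mul_smul σ τ x := Subtype.ext (mul_smul σ τ (x : JZero M))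
  smul_zero σ := Subtype.ext (smul_zero σ)
  smul_add σ x y := Subtype.ext (smul_add σ (x : JZero M) (y : JZero M))

end Saturated

end Fermat.Agent.G
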