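import Mathlib
import Fermat.Agent.S35.AsmDefs
import Fermat.Agent.S35.Asm.Engine
import Fermat.Agent.G.Adic.Wire
import Fermat.Prelude.Def_CuspForm_Newforms
import Fermat.Prelude.Def_GaloisRep_LocalConditions

/-!
# S35 (zero-regret prework): the TOP WIRING from named hypotheses  (helper2)

`s35asm_wiring` : the engine `s35asm_of_tate` run on the Hecke saturation of ANY Galois-stable
subgroup `K₀ ≤ J₀(M)(ℚ̄)` containing the Kummer classes of the characters killing `PEq`;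
`s35asm_main` (`K₀ := s35asmNew M`, T-clause) : the frozen statement S35 (verbatim conclusion, with a
general character `χ : 𝕋 → 𝒪'` in place of `iota.comp chig.rangeRestrict`);
`s36asm_main` (`K₀ := s35asmNewP (q ∣ M' ∧ ¬ q² ∣ M') M`, Q-clause) : the frozen statement S36; from

* the STRONG `p`-adic engine `s35asm_of_tate` (S35/Asm/Engine.lean; a THEOREM), run on the ABSTRACT
  group `J := s35asmNewS M S` = the HECKE-SATURATED new subgroup (the classes of `J₀(M)(ℚ̄)` all of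
  whose translates by words in the `T_ℓ`, `ℓ ∤ M`, `ℓ ∉ S`, are killed by both push-forwards
  `α_*, φ_*` to level `M / q`, for all `q ‖ M`; helper7's trick: stable under the `T_ℓ` BY
  CONSTRUCTION, so NO commutation `α_* T_ℓ = T_ℓ α_*` on `J₀(M)` is needed).  Every element of its
  Tate module is new by construction, so the geometric input is literally
  `hB` = (B'') : for every Frobenius lift `s` at `q ‖ M`, `q ≠ λ`, some power of
  `(s² - 1)(s² - q²)` kills every NEW `x ∈ J₀(M)[λ^∞]`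
  (`s35asmPhi (toAddMonoidEnd s) q ^ m` in `AddMonoid.End (JZero M)`; the explicit iterate form
  `(s² - q²)^b (s² - 1)^a x = 0` is converted by `s35asm_phiJ_of_iterate`, the form at level
  `M' * q` on `ker α_* ⊓ ker φ_*` by `s35asm_hB_of_at`);
* the Kummer family `Θ` of `gad_theta_family M` together with a set `PEq ⊆ Γ₀(M)^ab` ("old classes":
  the images of the two transfers `Γ₀(M/q)^ab → Γ₀(M)^ab`) such that
  `hNat`  : `χ` kills `PEq` `⟹ Θ_n χ` is new                    (NAT-α, NAT-φ, only the VANISHING half),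
  `hNew0` : there is ONE nonzero character `ω : Γ₀(M)^ab → Frac 𝒪'` killing `PE ∪ PEq` with the
            `S`-anemic system of `χ`                                              (NEW-0, EXISTS-shape).
  (The saturation `PEq'' = ⋃_w tr_w(PEq)` is done here: `tr_ℓ`-stable by construction; `Θ_n χ` lies
  in the saturated new subgroup by the Hecke equivariance of `Θ`; `ω` kills it because it is an
  eigenvector.)
-/

set_option autoImplicit false
set_option linter.style.haveILetI false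
set_option linter.unusedVariables false
set_option linter.unusedSectionVars false

noncomputable section

namespace Fermat.Agent.G

open Polynomial IsLocalRing CongruenceSubgroup ModularCurve AlgebraicCurve Fermat.Agent.S16LB
open scoped TensorProduct MatrixGroups

local notation "Qb" => AlgebraicClosure ℚ
local notation "GQ" => (AlgebraicClosure ℚ ≃ₐ[ℚ] AlgebraicClosure ℚ)

/-! ### the geometric input (B''): equivalent forms -/

/-- `x ↦ s² x - x` on `J₀(M)(ℚ̄)` -/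
def s35asmD1 {M : ℕ} (s : GQ) (x : JZero M) : JZero M := s • s • x - x

/-- `x ↦ s² x - q² x` on `J₀(M)(ℚ̄)` -/
def s35asmD2 {M : ℕ} (q : ℕ) (s : GQ) (x : JZero M) : JZero M := s • s • x - q ^ 2 • x

set_option maxHeartbeats 1600000 in
/-- from the explicit iterate form `(s² - q²)^b (s² - 1)^a x = 0` to the operator form. -/
theorem s35asm_phiJ_of_iterate {M : ℕ} (q : ℕ) (s : GQ) (a b : ℕ) (x : JZero M)
    (h : (s35asmD2 q s)^[b] ((s35asmD1 s)^[a] x) = 0) :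
    (s35asmPhi (DistribMulAction.toAddMonoidEnd GQ (JZero M) s) q ^ (a + b)) x = 0 := by
  set E : AddMonoid.End (JZero M) := DistribMulAction.toAddMonoidEnd GQ (JZero M) s with hE
  set A1 : AddMonoid.End (JZero M) := E * E - 1 with hA1
  set A2 : AddMonoid.End (JZero M) := E * E - ((q ^ 2 : ℕ) : AddMonoid.End (JZero M)) with hA2
  have c1 : ∀ y : JZero M, A1 y = s35asmD1 s y := fun y => rfl
  have c2 : ∀ y : JZero M, A2 y = s35asmD2 q s y := fun y => rfl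
  have d1 : ∀ (k : ℕ) (y : JZero M), (A1 ^ k) y = (s35asmD1 s)^[k] y := by
    intro k
    induction k with
    | zero => intro y; rfl
    | succ k ih =>
      intro y
      rw [pow_succ, Function.iterate_succ, Function.comp_apply, ← c1, ← ih]
      rfl
  have d2 : ∀ (k : ℕ) (y : JZero M), (A2 ^ k) y = (s35asmD2 q s)^[k] y := by
    intro k
    induction k with
    | zero => intro y; rfl
    | succ k ih =>
      intro y
      rw [pow_succ, Function.iterate_succ, Function.comp_apply, ← c2, ← ih]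
      rfl
  have hkey : (A2 ^ b * A1 ^ a) x = 0 := by
    rw [← d1, ← d2] at h
    exact h
  rw [s35asmPhi_pow_add]
  show (A1 ^ b * A2 ^ a) ((A2 ^ b * A1 ^ a) x) = 0
  rw [hkey, map_zero]

set_option maxHeartbeats 1600000 in
/-- from the operator form on `J₀(M)` to the operator form on a Galois-stable subgroup. -/
theorem s35asm_phi_sub {M : ℕ} [NeZero M] (S : Finset ℕ) (K₀ : AddSubgroup (JZero M))
    (hK₀ : ∀ (σ : GQ) (x : JZero M), x ∈ K₀ → σ • x ∈ K₀) (q : ℕ) (s : GQ) (m : ℕ)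
    (x : s35asmSatSub M S K₀)
    (h : (s35asmPhi (DistribMulAction.toAddMonoidEnd GQ (JZero M) s) q ^ m) (x : JZero M) = 0) :
    letI := s35asmSatAction M S K₀ hK₀
    (s35asmPhi (DistribMulAction.toAddMonoidEnd GQ (s35asmSatSub M S K₀) s) q ^ m) x = 0 := by
  letI := s35asmSatAction M S K₀ hK₀
  have htw : S35asmTw (fun _ : Unit => (s35asmSatSub M S K₀).subtype)
      (DistribMulAction.toAddMonoidEnd GQ (s35asmSatSub M S K₀) s)
      (DistribMulAction.toAddMonoidEnd GQ (JZero M) s) := fun _ y => rfl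
  have h1 := (htw.phi q).pow m () x
  apply Subtype.ext
  exact h1.trans h

/-- from the statement at level `M' * q` on `ker α_* ⊓ ker φ_*` (the shape of the geometric leaf)
to the hypothesis `hB` of `s35asm_main`. -/
theorem s35asm_hB_of_at {M : ℕ} (lam : ℕ)
    (hat : ∀ (M' q : ℕ) [NeZero M'] [NeZero q], M = M' * q → q.Prime → ¬ q ∣ M' → q ≠ lam →
      ∀ A : ValuationSubring Qb, A.LiesOverPrime q → ∀ s : GQ, A.IsFrobeniusAt s q →
        ∃ m : ℕ, ∀ x : JZero (M' * q), x ∈ s35asmNewAt M' q → (∃ n : ℕ, lam ^ n • x = 0) →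
          (s35asmPhi (DistribMulAction.toAddMonoidEnd GQ (JZero (M' * q)) s) q ^ m) x = 0)
    (hM : M ≠ 0) :
    ∀ q : ℕ, q.Prime → q ≠ lam → q ∣ M → ¬ q ^ 2 ∣ M →
      ∀ A : ValuationSubring Qb, A.LiesOverPrime q → ∀ s : GQ, A.IsFrobeniusAt s q →
        ∃ m : ℕ, ∀ x : JZero M, x ∈ s35asmNew M → (∃ n : ℕ, lam ^ n • x = 0) →
          (s35asmPhi (DistribMulAction.toAddMonoidEnd GQ (JZero M) s) q ^ m) x = 0 := by
  intro q hq hqlam hqM hq2 A hA s hs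
  obtain ⟨M', rfl⟩ : ∃ M', M = M' * q := ⟨M / q, (Nat.div_mul_cancel hqM).symm⟩
  have hM'0 : M' ≠ 0 := fun h => hM (by rw [h, zero_mul])
  have hqM' : ¬ q ∣ M' := by
    rintro ⟨c, rfl⟩
    exact hq2 ⟨c, by ring⟩
  haveI : NeZero M' := ⟨hM'0⟩
  haveI : NeZero q := ⟨hq.ne_zero⟩
  obtain ⟨m, hm⟩ := hat M' q rfl hq hqM' hqlam A hA s hs
  refine ⟨m, fun x hx hxt => hm x ?_ hxt⟩
  have := (mem_s35asmNew.mp hx) M' q rfl hq hM'0 hqM'
  simpa using this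

/-! ### words in the transfers `tr_ℓ` on `Γ₀(M)^ab` -/

section Words

variable (M : ℕ) [NeZero M] (S : Finset ℕ)

/-- `tr_i` on `Γ₀(M)^ab` -/
def s35asmTr (i : S35asmIdx M S) : s16lbAb M →+ s16lbAb M :=
  haveI : Fact (i.1).Prime := ⟨i.2.1⟩
  gasmTr M i.1 i.2.2.1

/-- the word `tr_{i_k} ∘ ⋯ ∘ tr_{i₁}` (anti-homomorphic in the word) -/
def s35asmTrW : List (S35asmIdx M S) → (s16lbAb M →+ s16lbAb M)
  | [] => AddMonoidHom.id _
  | i :: w => (s35asmTrW w).comp (s35asmTr M S i)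

@[simp] theorem s35asmTrW_nil (x : s16lbAb M) : s35asmTrW M S [] x = x := rfl

@[simp] theorem s35asmTrW_cons (i : S35asmIdx M S) (w : List (S35asmIdx M S)) (x : s16lbAb M) :
    s35asmTrW M S (i :: w) x = s35asmTrW M S w (s35asmTr M S i x) := rfl

theorem s35asmTrW_append (w w' : List (S35asmIdx M S)) (x : s16lbAb M) :
    s35asmTrW M S (w ++ w') x = s35asmTrW M S w' (s35asmTrW M S w x) := by
  induction w generalizing x with
  | nil => rfl
  | cons i w ih => rw [List.cons_append, s35asmTrW_cons, s35asmTrW_cons, ih]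

/-- the saturation of a set of classes under the words -/
def s35asmSat (PEq : Set (s16lbAb M)) : Set (s16lbAb M) :=
  {y | ∃ (w : List (S35asmIdx M S)) (s : s16lbAb M), s ∈ PEq ∧ y = s35asmTrW M S w s}

variable {M S}

theorem s35asm_subset_sat (PEq : Set (s16lbAb M)) : PEq ⊆ s35asmSat M S PEq :=
  fun s hs => ⟨[], s, hs, rfl⟩

theorem s35asm_tr_mem_sat {PEq : Set (s16lbAb M)} (i : S35asmIdx M S) {y : s16lbAb M}
    (hy : y ∈ s35asmSat M S PEq) : s35asmTr M S i y ∈ s35asmSat M S PEq := by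
  obtain ⟨w, s, hs, rfl⟩ := hy
  refine ⟨w ++ [i], s, hs, ?_⟩
  rw [s35asmTrW_append]
  rfl

/-- characters killing `PE` stay so after composition with a word -/
theorem s35asm_kills_comp_word {A : Type*} [AddCommGroup A] (χ : s16lbAb M →+ A)
    (h : ∀ s ∈ gadwPE M, χ s = 0) (w : List (S35asmIdx M S)) :
    ∀ s ∈ gadwPE M, χ (s35asmTrW M S w s) = 0 := by
  induction w generalizing χ with
  | nil => exact h
  | cons i w ih =>
    intro s hs
    rw [s35asmTrW_cons]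
    haveI : Fact (i.1).Prime := ⟨i.2.1⟩
    have h1 : ∀ s ∈ gadwPE M, (χ.comp (s35asmTrW M S w)) s = 0 := fun s hs => ih χ h s hs
    exact gadw_kills_comp (χ.comp (s35asmTrW M S w)) h1 i.1 i.2.2.1 s hs

/-- an eigencharacter composed with a word is a multiple of itself -/
theorem s35asm_eigen_word {K : Type*} [Field K] (ω : s16lbAb M →+ K) (c : S35asmIdx M S → K)
    (hω : ∀ i : S35asmIdx M S, ω.comp (s35asmTr M S i) = c i • ω)
    (w : List (S35asmIdx M S)) : ∃ d : K, ω.comp (s35asmTrW M S w) = d • ω := by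
  induction w with
  | nil => exact ⟨1, by rw [one_smul]; rfl⟩
  | cons i w ih =>
    obtain ⟨d, hd⟩ := ih
    refine ⟨d * c i, ?_⟩
    have : ω.comp (s35asmTrW M S (i :: w)) = (ω.comp (s35asmTrW M S w)).comp (s35asmTr M S i) :=
      rfl
    rw [this, hd]
    refine AddMonoidHom.ext fun x => ?_
    have h2 := DFunLike.congr_fun (hω i) x
    simp only [AddMonoidHom.comp_apply, AddMonoidHom.smul_apply, smul_eq_mul] at h2 ⊢
    rw [h2, mul_assoc]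

end Words

/-! ### the Hecke operators and the Kummer maps on the saturated subgroup -/

section New

variable {M : ℕ} [NeZero M] (S : Finset ℕ) (K₀ : AddSubgroup (JZero M))

/-- the Hecke operators on the saturated subgroup, indexed by `ℕ` (junk `0` outside the good
primes away from `S`). -/
def s35asmT (ℓ : ℕ) : s35asmSatSub M S K₀ →+ s35asmSatSub M S K₀ :=
  if h : ℓ.Prime ∧ ¬ ℓ ∣ M ∧ ℓ ∉ (↑S : Set ℕ) then
    ((s35asmTJ M S ⟨ℓ, h⟩).comp (s35asmSatSub M S K₀).subtype).codRestrict (s35asmSatSub M S K₀)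
      (fun x => s35asm_satSub_hecke_mem ⟨ℓ, h⟩ x.2)
  else 0

theorem s35asmT_coe {ℓ : ℕ} (hℓ : ℓ.Prime) (hℓM : ¬ ℓ ∣ M) (hℓS : ℓ ∉ (↑S : Set ℕ))
    (x : s35asmSatSub M S K₀) :
    ((s35asmT S K₀ ℓ x : s35asmSatSub M S K₀) : JZero M) =
      heckeOperatorBar M ⟨ℓ, hℓ⟩ (x : JZero M) := by
  unfold s35asmT
  rw [dif_pos ⟨hℓ, hℓM, hℓS⟩]
  rfl

theorem s35asmT_of_not {ℓ : ℕ} (h : ¬ (ℓ.Prime ∧ ¬ ℓ ∣ M ∧ ℓ ∉ (↑S : Set ℕ))) :
    s35asmT S K₀ ℓ = 0 := by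
  unfold s35asmT
  rw [dif_neg h]

/-- the Kummer family sends characters killing the SATURATED old classes into the SATURATED
subgroup (for `n` prime to the good primes away from `S`). -/
theorem s35asm_theta_mem_sat (Θ : ∀ n : ℕ, gasmPEHoms M (ZMod n) →+ JZero M)
    (hΘeq : ∀ n : ℕ, 0 < n → ∀ (ℓ : ℕ) [Fact ℓ.Prime] (hℓN : ¬ ℓ ∣ M) (_ : ¬ ℓ ∣ n)
      (χ₁ χ' : gasmPEHoms M (ZMod n)),
      (χ' : s16lbAb M →+ ZMod n) = (χ₁ : s16lbAb M →+ ZMod n).comp (gasmTr M ℓ hℓN) →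
        Θ n χ' = heckeOperatorBar M ⟨ℓ, Fact.out⟩ (Θ n χ₁))
    (PEq : Set (s16lbAb M))
    (hNat : ∀ n : ℕ, 0 < n → ∀ χ₁ : gasmPEHoms M (ZMod n),
      (∀ s ∈ PEq, (χ₁ : s16lbAb M →+ ZMod n) s = 0) → Θ n χ₁ ∈ K₀)
    (n : ℕ) (hn : 0 < n) (hnS : ∀ i : S35asmIdx M S, ¬ i.1 ∣ n)
    (χ₁ : gasmPEHoms M (ZMod n))
    (hχ : ∀ s ∈ s35asmSat M S PEq, (χ₁ : s16lbAb M →+ ZMod n) s = 0) :
    Θ n χ₁ ∈ s35asmSatSub M S K₀ := by
  rw [mem_s35asmSatSub]
  -- `T_w (Θ χ) = Θ (χ ∘ tr_w)`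
  have key : ∀ (w : List (S35asmIdx M S)) (χ₂ : gasmPEHoms M (ZMod n)),
      ∃ h : GasmPE ((χ₂ : s16lbAb M →+ ZMod n).comp (s35asmTrW M S w)),
        s35asmTW M S w (Θ n χ₂) = Θ n ⟨_, h⟩ := by
    intro w
    induction w with
    | nil => intro χ₂; exact ⟨χ₂.2, rfl⟩
    | cons i w ih =>
      intro χ₂
      haveI : Fact (i.1).Prime := ⟨i.2.1⟩
      have hk : ∀ s ∈ gadwPE M, (χ₂ : s16lbAb M →+ ZMod n) s = 0 :=
        (gadw_kills_iff _).mpr χ₂.2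
      have h1 : GasmPE ((χ₂ : s16lbAb M →+ ZMod n).comp (s35asmTrW M S (i :: w))) :=
        (gadw_kills_iff _).mp (s35asm_kills_comp_word _ hk (i :: w))
      obtain ⟨h2, h3⟩ := ih χ₂
      refine ⟨h1, ?_⟩
      rw [s35asmTW_cons, s35asmTJ_apply, h3]
      exact (hΘeq n hn i.1 i.2.2.1 (hnS i) ⟨_, h2⟩ ⟨_, h1⟩ rfl).symm
  intro w
  obtain ⟨h, hw⟩ := key w χ₁
  rw [hw]
  refine hNat n hn ⟨_, h⟩ fun s hs => ?_
  exact hχ _ ⟨w, s, hs, rfl⟩

/-- the Kummer maps with values in the saturated subgroup, extended by `0`. -/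
def s35asmTheta (Θ : ∀ n : ℕ, gasmPEHoms M (ZMod n) →+ JZero M) (PEq : Set (s16lbAb M))
    (hNatS : ∀ n : ℕ, 0 < n → (∀ i : S35asmIdx M S, ¬ i.1 ∣ n) →
      ∀ χ : gasmPEHoms M (ZMod n),
        (∀ s ∈ s35asmSat M S PEq, (χ : s16lbAb M →+ ZMod n) s = 0) →
          Θ n χ ∈ s35asmSatSub M S K₀)
    (n : ℕ) (χ : s16lbAb M →+ ZMod n) : s35asmSatSub M S K₀ := by
  classical
  exact if h : (0 < n ∧ ∀ i : S35asmIdx M S, ¬ i.1 ∣ n) ∧
      (∀ s ∈ gadwPE M ∪ s35asmSat M S PEq, χ s = 0) then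
    ⟨Θ n ⟨χ, (gadw_kills_iff χ).mp fun s hs => h.2 s (Or.inl hs)⟩,
      hNatS n h.1.1 h.1.2 ⟨χ, (gadw_kills_iff χ).mp fun s hs => h.2 s (Or.inl hs)⟩
        fun s hs => h.2 s (Or.inr hs)⟩
  else 0

theorem s35asmTheta_coe (Θ : ∀ n : ℕ, gasmPEHoms M (ZMod n) →+ JZero M) (PEq : Set (s16lbAb M))
    (hNatS : ∀ n : ℕ, 0 < n → (∀ i : S35asmIdx M S, ¬ i.1 ∣ n) →
      ∀ χ : gasmPEHoms M (ZMod n),
        (∀ s ∈ s35asmSat M S PEq, (χ : s16lbAb M →+ ZMod n) s = 0) →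
          Θ n χ ∈ s35asmSatSub M S K₀)
    {n : ℕ} (hn : 0 < n) (hnS : ∀ i : S35asmIdx M S, ¬ i.1 ∣ n) (χ : s16lbAb M →+ ZMod n)
    (h : ∀ s ∈ gadwPE M ∪ s35asmSat M S PEq, χ s = 0) :
    ((s35asmTheta S K₀ Θ PEq hNatS n χ : s35asmSatSub M S K₀) : JZero M) =
      Θ n ⟨χ, (gadw_kills_iff χ).mp fun s hs => h s (Or.inl hs)⟩ := by
  unfold s35asmTheta
  rw [dif_pos ⟨⟨hn, hnS⟩, h⟩]

end New

/-- the eigenvalues of a character of the Hecke algebra, as a function on `ℕ` (junk `0`) -/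
def s35asmA {M : ℕ} [NeZero M] {S : Finset ℕ} {O' : Type} [CommRing O']
    (χ : CuspForm.heckeAlgebra M 2 (↑S : Set ℕ) →+* O') (ℓ : ℕ) : O' := by
  classical
  exact if h : ℓ.Prime ∧ ¬ ℓ ∣ M ∧ ℓ ∉ (↑S : Set ℕ) then
    χ (CuspForm.heckeAlgebra.T h.1 h.2.1 h.2.2) else 0

theorem s35asmA_eq {M : ℕ} [NeZero M] {S : Finset ℕ} {O' : Type} [CommRing O']
    (χ : CuspForm.heckeAlgebra M 2 (↑S : Set ℕ) →+* O') (ℓ : ℕ) (hℓ : ℓ.Prime) (hℓM : ¬ ℓ ∣ M)
    (hℓS : ℓ ∉ (↑S : Set ℕ)) : s35asmA χ ℓ = χ (CuspForm.heckeAlgebra.T hℓ hℓM hℓS) := by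
  unfold s35asmA
  rw [dif_pos ⟨hℓ, hℓM, hℓS⟩]

/-! ### the top wiring -/

/-- **the generic wiring**: the strong engine on the Hecke saturation of a Galois-stable subgroup
`K₀` receiving the Kummer classes of the characters that kill `PEq`. -/
theorem s35asm_wiring
    {M : ℕ} [NeZero M] (lam : ℕ) [Fact lam.Prime] (S : Finset ℕ)
    (O' : Type) [CommRing O'] [IsDomain O'] [IsDiscreteValuationRing O']
    [IsAdicComplete (IsLocalRing.maximalIdeal O') O'] [Finite (IsLocalRing.ResidueField O')]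
    [CharZero O'] (hlamO' : (lam : O') ∈ IsLocalRing.maximalIdeal O')
    (χ : CuspForm.heckeAlgebra M 2 (↑S : Set ℕ) →+* O')
    (hlamS : lam ∈ S) (hMS : ∀ q : ℕ, q.Prime → q ∣ M → q ∈ S)
    -- the Kummer family
    (Θ : ∀ n : ℕ, gasmPEHoms M (ZMod n) →+ JZero M)
    (hΘinj : ∀ n : ℕ, 0 < n → Function.Injective (Θ n))
    (hΘeq : ∀ n : ℕ, 0 < n → ∀ (ℓ : ℕ) [Fact ℓ.Prime] (hℓN : ¬ ℓ ∣ M) (_ : ¬ ℓ ∣ n)
      (χ₁ χ' : gasmPEHoms M (ZMod n)),
      (χ' : s16lbAb M →+ ZMod n) = (χ₁ : s16lbAb M →+ ZMod n).comp (gasmTr M ℓ hℓN) →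
        Θ n χ' = heckeOperatorBar M ⟨ℓ, Fact.out⟩ (Θ n χ₁))
    (hΘcompat : ∀ n d : ℕ, 0 < n → 0 < d → ∀ (a : gasmPEHoms M (ZMod n))
      (b : gasmPEHoms M (ZMod (n * d))),
      (∀ x : s16lbAb M, ∃ k : ℤ, (a : s16lbAb M →+ ZMod n) x = (k : ZMod n) ∧
        (b : s16lbAb M →+ ZMod (n * d)) x = ((d * k : ℤ) : ZMod (n * d))) →
        Θ (n * d) b = Θ n a)
    -- the Galois-stable subgroup and the old classes
    (K₀ : AddSubgroup (JZero M)) (hK₀ : ∀ (σ : GQ) (x : JZero M), x ∈ K₀ → σ • x ∈ K₀)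
    (PEq : Set (s16lbAb M))
    (hNat : ∀ n : ℕ, 0 < n → ∀ χ₁ : gasmPEHoms M (ZMod n),
      (∀ s ∈ PEq, (χ₁ : s16lbAb M →+ ZMod n) s = 0) → Θ n χ₁ ∈ K₀)
    (hNew0 : ∃ ω : s16lbAb M →+ FractionRing O', ω ≠ 0 ∧ (∀ s ∈ gadwPE M ∪ PEq, ω s = 0) ∧
      ∀ (ℓ : ℕ) [Fact ℓ.Prime] (hℓM : ¬ ℓ ∣ M) (hℓS : ℓ ∉ (↑S : Set ℕ)),
        ω.comp (gasmTr M ℓ hℓM) =
          ((algebraMap O' (FractionRing O')).comp χ)
            (CuspForm.heckeAlgebra.T Fact.out hℓM hℓS) • ω) :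
    S35asmConcl lam M S O' (s35asmA χ)
      (fun q s => ∃ m : ℕ, ∀ x : JZero M, x ∈ K₀ → (∃ n : ℕ, lam ^ n • x = 0) →
        (s35asmPhi (DistribMulAction.toAddMonoidEnd GQ (JZero M) s) q ^ m) x = 0)
      (fun _ A => ∃ c : ℕ, c ≠ 0 ∧ ∀ x : JZero M, x ∈ K₀ → (∃ n : ℕ, lam ^ n • x = 0) →
        (∀ σ ∈ A.inertiaSubgroupIn ℚ, σ • x = x) → c • x = 0) := by
  classical
  have hpp : lam.Prime := Fact.out
  letI : DistribMulAction GQ (s35asmSatSub M S K₀) := s35asmSatAction M S K₀ hK₀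
  have hcoe : ∀ (σ : GQ) (x : s35asmSatSub M S K₀),
      ((σ • x : s35asmSatSub M S K₀) : JZero M) = σ • (x : JZero M) := fun _ _ => rfl
  -- the `ℤ_[lam]`-algebra structure of `O'`
  letI : Algebra ℤ_[lam] O' := (gadcPadicHom lam (maximalIdeal O') hlamO').toAlgebra
  have hinj : Function.Injective (algebraMap ℤ_[lam] O') := by
    rw [injective_iff_map_eq_zero]
    intro x hx
    by_contra hx0
    obtain ⟨k, u, rfl⟩ : ∃ (k : ℕ) (u : ℤ_[lam]ˣ), x = (u : ℤ_[lam]) * (lam : ℤ_[lam]) ^ k :=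
      ⟨_, _, PadicInt.unitCoeff_spec hx0⟩
    rw [map_mul, map_pow, map_natCast] at hx
    rcases mul_eq_zero.mp hx with h | h
    · exact ((u.map (algebraMap ℤ_[lam] O' : ℤ_[lam] →* O')).ne_zero) h
    · exact pow_ne_zero k (Nat.cast_ne_zero.mpr hpp.ne_zero) h
  obtain ⟨𝒯⟩ := gat_exists lam (s35asmSatSub M S K₀)
  -- the eigenvalues
  have ha : ∀ (ℓ : ℕ) (hℓ : ℓ.Prime) (hℓN : ¬ ℓ ∣ M) (hℓS : ℓ ∉ (↑S : Set ℕ)),
      s35asmA χ ℓ = χ (CuspForm.heckeAlgebra.T hℓ hℓN hℓS) := s35asmA_eq χ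
  -- torsion of the subgroup versus torsion of `J₀(M)`
  have htors : ∀ x : s35asmSatSub M S K₀, (∃ n : ℕ, lam ^ n • x = 0) →
      ∃ n : ℕ, lam ^ n • (x : JZero M) = 0 := by
    rintro x ⟨n, hn⟩
    refine ⟨n, ?_⟩
    have := congrArg (fun y : s35asmSatSub M S K₀ => (y : JZero M)) hn
    simpa using this
  -- finiteness, open stabilisers, commutation
  have hfin : {x : s35asmSatSub M S K₀ | lam • x = 0}.Finite := by
    have h0 := gad_finite_torsion M lam hpp.pos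
    refine (h0.preimage (f := fun x : s35asmSatSub M S K₀ => (x : JZero M))
      (Subtype.val_injective.injOn)).subset ?_
    intro x hx
    have hx' : lam • x = 0 := hx
    show lam • (x : JZero M) = 0
    have := congrArg (fun y : s35asmSatSub M S K₀ => (y : JZero M)) hx'
    simpa using this
  have hopen : ∀ x : s35asmSatSub M S K₀, (∃ n : ℕ, lam ^ n • x = 0) →
      ∃ L : IntermediateField ℚ Qb,
        FiniteDimensional ℚ L ∧ ∀ σ : GQ, (∀ y ∈ L, σ y = y) → σ • x = x := by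
    intro x _
    obtain ⟨E, hE, h⟩ := gop_exists_fixing M (x : JZero M)
    refine ⟨E, hE, fun σ hσ => Subtype.ext ?_⟩
    rw [hcoe]
    refine h σ ?_
    rw [IntermediateField.mem_fixingSubgroup_iff]
    exact hσ
  have hcomm : ∀ (ℓ : ℕ) (σ : GQ) (x : s35asmSatSub M S K₀),
      s35asmT S K₀ ℓ (σ • x) = σ • s35asmT S K₀ ℓ x := by
    intro ℓ σ x
    by_cases h : ℓ.Prime ∧ ¬ ℓ ∣ M ∧ ℓ ∉ (↑S : Set ℕ)
    · apply Subtype.ext
      rw [hcoe, s35asmT_coe S K₀ h.1 h.2.1 h.2.2, s35asmT_coe S K₀ h.1 h.2.1 h.2.2, hcoe]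
      exact (gasm_hecke_galois M ⟨ℓ, h.1⟩ σ (x : JZero M)).symm
    · rw [s35asmT_of_not S K₀ h]
      simp
  have hpS' : ∀ ℓ : ℕ, ℓ ∉ S → ℓ ≠ lam := fun ℓ hℓS h => hℓS (h ▸ hlamS)
  have hunr : ∀ q : ℕ, q.Prime → ¬ q ∣ M → q ≠ lam → ∀ A : ValuationSubring Qb,
      A.LiesOverPrime q → ∀ σ ∈ A.inertiaSubgroupIn ℚ, ∀ x : s35asmSatSub M S K₀,
        (∃ n : ℕ, lam ^ n • x = 0) → σ • x = x := by
    intro q hq hqN hqp A hA σ hσ x hx
    apply Subtype.ext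
    rw [hcoe]
    exact (g_es_torsion M lam hpp q hq hqN hqp A hA).1 σ hσ (x : JZero M) (htors x hx)
  have hfrob : ∀ ℓ : ℕ, ℓ.Prime → ¬ ℓ ∣ M → ℓ ∉ S → ∀ A : ValuationSubring Qb,
      A.LiesOverPrime ℓ → ∀ σ : GQ, A.IsFrobeniusAt σ ℓ → ∀ x : s35asmSatSub M S K₀,
        (∃ n : ℕ, lam ^ n • x = 0) → σ • σ • x - s35asmT S K₀ ℓ (σ • x) + ℓ • x = 0 := by
    intro ℓ hℓ hℓN hℓS A hA σ hσ x hx
    apply Subtype.ext
    have h1 := (g_es_torsion M lam hpp ℓ hℓ hℓN (hpS' ℓ hℓS) A hA).2 σ hσ (x : JZero M)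
      (htors x hx)
    rw [AddSubgroup.coe_add, AddSubgroup.coe_sub,
      s35asmT_coe S K₀ hℓ hℓN (by exact_mod_cast hℓS), hcoe, hcoe, AddSubgroup.coe_nsmul,
      AddSubgroup.coe_zero]
    exact h1
  -- the good primes away from `S` do not divide powers of `lam`
  have hndvd : ∀ (m : ℕ) (i : S35asmIdx M S), ¬ i.1 ∣ lam ^ m := by
    intro m i hdvd
    have := (Nat.prime_dvd_prime_iff_eq i.2.1 hpp).mp (i.2.1.dvd_of_dvd_pow hdvd)
    exact hpS' i.1 (by exact_mod_cast i.2.2.2) this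
  -- NAT for the saturated objects
  have hNatS : ∀ n : ℕ, 0 < n → (∀ i : S35asmIdx M S, ¬ i.1 ∣ n) →
      ∀ χ₁ : gasmPEHoms M (ZMod n),
        (∀ s ∈ s35asmSat M S PEq, (χ₁ : s16lbAb M →+ ZMod n) s = 0) →
          Θ n χ₁ ∈ s35asmSatSub M S K₀ :=
    fun n hn hnS χ₁ hχ₁ => s35asm_theta_mem_sat S K₀ Θ hΘeq PEq hNat n hn hnS χ₁ hχ₁
  -- the eigenvector
  have hv : ∃ v : O' ⊗[ℤ_[lam]] 𝒯.T, v ≠ 0 ∧ ∀ ℓ : ℕ, ℓ.Prime → ¬ ℓ ∣ M → ℓ ∉ S →
      ∀ w : 𝒯.T →ₗ[ℤ_[lam]] 𝒯.T,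
        (∀ (n : ℕ) (x : 𝒯.T), 𝒯.ev n (w x) = s35asmT S K₀ ℓ (𝒯.ev n x)) →
        w.baseChange O' v = s35asmA χ ℓ • v := by
    obtain ⟨ω, hω0, hωkill, hωeig⟩ := hNew0
    let τ : S35asmIdx M S → s16lbAb M →+ s16lbAb M := s35asmTr M S
    have hkill₁ : ∀ {A : Type} [AddCommGroup A] (χ₁ : s16lbAb M →+ A),
        (∀ s ∈ gadwPE M ∪ s35asmSat M S PEq, χ₁ s = 0) → GasmPE χ₁ :=
      fun χ₁ h => (gadw_kills_iff χ₁).mp fun s hs => h s (Or.inl hs)
    have hkillτ : ∀ (i : S35asmIdx M S) (A : Type) [AddCommGroup A] (χ₁ : s16lbAb M →+ A),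
        (∀ s ∈ gadwPE M ∪ s35asmSat M S PEq, χ₁ s = 0) →
          ∀ s ∈ gadwPE M ∪ s35asmSat M S PEq, χ₁ (τ i s) = 0 := by
      intro i A _ χ₁ h₁ s hs
      haveI : Fact (i.1).Prime := ⟨i.2.1⟩
      rcases hs with hs | hs
      · exact gadw_kills_comp χ₁ (fun s hs => h₁ s (Or.inl hs)) i.1 i.2.2.1 s hs
      · exact h₁ _ (Or.inr (s35asm_tr_mem_sat i hs))
    -- `ω` kills the saturated old classes
    have hωeig' : ∀ i : S35asmIdx M S, ω.comp (s35asmTr M S i) =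
        ((algebraMap O' (FractionRing O')).comp χ)
          (CuspForm.heckeAlgebra.T i.2.1 i.2.2.1 i.2.2.2) • ω := by
      intro i
      haveI : Fact (i.1).Prime := ⟨i.2.1⟩
      exact hωeig i.1 i.2.2.1 i.2.2.2
    have hωsat : ∀ s ∈ gadwPE M ∪ s35asmSat M S PEq, ω s = 0 := by
      rintro s (hs | ⟨w, s₀, hs₀, rfl⟩)
      · exact hωkill s (Or.inl hs)
      · obtain ⟨d, hd⟩ := s35asm_eigen_word ω _ hωeig' w
        have := DFunLike.congr_fun hd s₀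
        rw [AddMonoidHom.comp_apply, AddMonoidHom.smul_apply, hωkill s₀ (Or.inr hs₀),
          smul_zero] at this
        exact this
    obtain ⟨v, hv0, hv⟩ := gad_exists_eigenvector lam O' hinj (K := FractionRing O') 𝒯
      (gpr_ab_fg M) (gadwPE M ∪ s35asmSat M S PEq)
      (fun m => s35asmTheta S K₀ Θ PEq hNatS (lam ^ m))
      (by
        intro m χ₁ χ₂ h₁ h₂
        have hm := pow_pos hpp.pos m
        have h₁₂ : ∀ s ∈ gadwPE M ∪ s35asmSat M S PEq, (χ₁ + χ₂) s = 0 := fun s hs => by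
          rw [AddMonoidHom.add_apply, h₁ s hs, h₂ s hs, add_zero]
        apply Subtype.ext
        rw [AddSubgroup.coe_add, s35asmTheta_coe S K₀ Θ PEq hNatS hm (hndvd m) _ h₁,
          s35asmTheta_coe S K₀ Θ PEq hNatS hm (hndvd m) _ h₂,
          s35asmTheta_coe S K₀ Θ PEq hNatS hm (hndvd m) _ h₁₂, ← map_add]
        rfl)
      (by
        intro m χ₁ h₁ h0
        have hm := pow_pos hpp.pos m
        have h0' := congrArg (fun y : s35asmSatSub M S K₀ => (y : JZero M)) h0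
        simp only [AddSubgroup.coe_zero] at h0'
        rw [s35asmTheta_coe S K₀ Θ PEq hNatS hm (hndvd m) _ h₁] at h0'
        have := hΘinj (lam ^ m) hm (a₁ := ⟨χ₁, hkill₁ χ₁ h₁⟩) (a₂ := 0)
          (by rw [h0', map_zero])
        exact congrArg Subtype.val this)
      (by
        intro m χ₁ χ₂ h₁ h₂ hk
        apply Subtype.ext
        rw [s35asmTheta_coe S K₀ Θ PEq hNatS (pow_pos hpp.pos _) (hndvd _) _ h₁,
          s35asmTheta_coe S K₀ Θ PEq hNatS (pow_pos hpp.pos _) (hndvd _) _ h₂]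
        exact hΘcompat (lam ^ m) lam (pow_pos hpp.pos m) hpp.pos ⟨χ₁, hkill₁ χ₁ h₁⟩
          ⟨χ₂, hkill₁ χ₂ h₂⟩ hk)
      τ (fun i => s35asmT S K₀ i.1) hkillτ
      (by
        intro i m χ₁ h₁
        haveI : Fact (i.1).Prime := ⟨i.2.1⟩
        have hm := pow_pos hpp.pos m
        have h₂ := hkillτ i _ χ₁ h₁
        apply Subtype.ext
        rw [s35asmT_coe S K₀ i.2.1 i.2.2.1 i.2.2.2,
          s35asmTheta_coe S K₀ Θ PEq hNatS hm (hndvd m) _ h₁,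
          s35asmTheta_coe S K₀ Θ PEq hNatS hm (hndvd m) (χ₁.comp (τ i)) h₂]
        exact hΘeq (lam ^ m) hm i.1 i.2.2.1 (hndvd m i) ⟨χ₁, hkill₁ χ₁ h₁⟩ ⟨_, hkill₁ _ h₂⟩ rfl)
      (fun i => s35asmA χ i.1) ω hω0 hωsat
      (by
        intro i
        rw [ha i.1 i.2.1 i.2.2.1 i.2.2.2]
        exact hωeig' i)
    exact ⟨v, hv0, fun ℓ hℓ hℓN hℓS w hw => hv ⟨ℓ, hℓ, hℓN, by exact_mod_cast hℓS⟩ w hw⟩
  refine (s35asm_of_tate lam M (NeZero.ne M) S hlamS O' hlamO' 𝒯 hfin hopen (s35asmT S K₀) hcomm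
    (s35asmA χ) hunr hfrob hv).mono ?_ ?_
  · -- the T-clause
    rintro q s ⟨m, hm⟩
    exact ⟨m, fun x hx =>
      s35asm_phi_sub S K₀ hK₀ q s m x (hm (x : JZero M) (s35asm_satSub_le x.2) (htors x hx))⟩
  · -- the Q-clause
    rintro q A ⟨c, hc0, hc⟩
    refine ⟨c, hc0, fun x hx hfix => Subtype.ext ?_⟩
    rw [AddSubgroup.coe_nsmul, AddSubgroup.coe_zero]
    exact hc (x : JZero M) (s35asm_satSub_le x.2) (htors x hx)
      (fun σ hσ => congrArg Subtype.val (hfix σ hσ))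

/-- **S35 from named hypotheses** (conclusion = the frozen statement, verbatim). -/
theorem s35asm_main
    {M : ℕ} [NeZero M] (lam : ℕ) [Fact lam.Prime] (S : Finset ℕ)
    (O' : Type) [CommRing O'] [IsDomain O'] [IsDiscreteValuationRing O']
    [IsAdicComplete (IsLocalRing.maximalIdeal O') O'] [Finite (IsLocalRing.ResidueField O')]
    [CharZero O'] (hlamO' : (lam : O') ∈ IsLocalRing.maximalIdeal O')
    (χ : CuspForm.heckeAlgebra M 2 (↑S : Set ℕ) →+* O')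
    (hlamS : lam ∈ S) (hMS : ∀ q : ℕ, q.Prime → q ∣ M → q ∈ S)
    -- the Kummer family and the old classes
    (Θ : ∀ n : ℕ, gasmPEHoms M (ZMod n) →+ JZero M)
    (hΘinj : ∀ n : ℕ, 0 < n → Function.Injective (Θ n))
    (hΘeq : ∀ n : ℕ, 0 < n → ∀ (ℓ : ℕ) [Fact ℓ.Prime] (hℓN : ¬ ℓ ∣ M) (_ : ¬ ℓ ∣ n)
      (χ₁ χ' : gasmPEHoms M (ZMod n)),
      (χ' : s16lbAb M →+ ZMod n) = (χ₁ : s16lbAb M →+ ZMod n).comp (gasmTr M ℓ hℓN) →
        Θ n χ' = heckeOperatorBar M ⟨ℓ, Fact.out⟩ (Θ n χ₁))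
    (hΘcompat : ∀ n d : ℕ, 0 < n → 0 < d → ∀ (a : gasmPEHoms M (ZMod n))
      (b : gasmPEHoms M (ZMod (n * d))),
      (∀ x : s16lbAb M, ∃ k : ℤ, (a : s16lbAb M →+ ZMod n) x = (k : ZMod n) ∧
        (b : s16lbAb M →+ ZMod (n * d)) x = ((d * k : ℤ) : ZMod (n * d))) →
        Θ (n * d) b = Θ n a)
    (PEq : Set (s16lbAb M))
    -- NAT (vanishing half): characters killing the old classes have NEW Kummer classes
    (hNat : ∀ n : ℕ, 0 < n → ∀ χ₁ : gasmPEHoms M (ZMod n),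
      (∀ s ∈ PEq, (χ₁ : s16lbAb M →+ ZMod n) s = 0) → Θ n χ₁ ∈ s35asmNew M)
    -- NEW-0 (EXISTS-shape): one eigencharacter killing the old classes
    (hNew0 : ∃ ω : s16lbAb M →+ FractionRing O', ω ≠ 0 ∧ (∀ s ∈ gadwPE M ∪ PEq, ω s = 0) ∧
      ∀ (ℓ : ℕ) [Fact ℓ.Prime] (hℓM : ¬ ℓ ∣ M) (hℓS : ℓ ∉ (↑S : Set ℕ)),
        ω.comp (gasmTr M ℓ hℓM) =
          ((algebraMap O' (FractionRing O')).comp χ)
            (CuspForm.heckeAlgebra.T Fact.out hℓM hℓS) • ω)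
    -- (B'') the geometric input
    (hB : ∀ q : ℕ, q.Prime → q ≠ lam → q ∣ M → ¬ q ^ 2 ∣ M →
      ∀ A : ValuationSubring Qb, A.LiesOverPrime q → ∀ s : GQ, A.IsFrobeniusAt s q →
        ∃ m : ℕ, ∀ x : JZero M, x ∈ s35asmNew M → (∃ n : ℕ, lam ^ n • x = 0) →
          (s35asmPhi (DistribMulAction.toAddMonoidEnd GQ (JZero M) s) q ^ m) x = 0) :
    ∃ (O'' : Type) (_ : CommRing O'') (_ : IsDomain O'') (_ : IsDiscreteValuationRing O'')
      (_ : IsAdicComplete (IsLocalRing.maximalIdeal O'') O'')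
      (_ : Finite (IsLocalRing.ResidueField O'')) (_ : CharZero O'')
      (_ : Algebra O' O'') (_ : Module.Finite O' O'') (_ : IsLocalHom (algebraMap O' O'')),
      Function.Injective (algebraMap O' O'') ∧
      ∃ ρ : GaloisRepAdic O'',
        (∀ (ℓ : ℕ) (hℓ : ℓ.Prime) (hℓM : ¬ ℓ ∣ M) (hℓS : ℓ ∉ (↑S : Set ℕ)),
          ∀ A : ValuationSubring (AlgebraicClosure ℚ), A.LiesOverPrime ℓ →
            ∀ σ : AlgebraicClosure ℚ ≃ₐ[ℚ] AlgebraicClosure ℚ, A.IsFrobeniusAt σ ℓ →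
              LinearMap.charpoly (ρ.ρ σ) =
                X ^ 2 - C (algebraMap O' O'' (χ (CuspForm.heckeAlgebra.T hℓ hℓM hℓS))) * X
                  + C ((ℓ : O''))) ∧
        (∀ q : ℕ, q.Prime → q ≠ lam → q ∣ M → ¬ q ^ 2 ∣ M →
          ∀ A : ValuationSubring (AlgebraicClosure ℚ), A.LiesOverPrime q →
            ∀ σ : AlgebraicClosure ℚ ≃ₐ[ℚ] AlgebraicClosure ℚ, A.IsFrobeniusAt σ q →
              LinearMap.charpoly (ρ.ρ σ) = X ^ 2 - C ((q : O'') + 1) * X + C ((q : O'')) ∨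
              LinearMap.charpoly (ρ.ρ σ) = X ^ 2 + C ((q : O'') + 1) * X + C ((q : O''))) := by
  obtain ⟨𝒪'', i1, i2, i3, i4, i5, i6, i7, i8, i9, hinj'', ρ', h1, -, h3, -⟩ :=
    s35asm_wiring lam S O' hlamO' χ hlamS hMS Θ hΘinj hΘeq hΘcompat (s35asmNew M)
      (fun σ _ hx => s35asm_new_smul_mem σ hx) PEq hNat hNew0
  refine ⟨𝒪'', i1, i2, i3, i4, i5, i6, i7, i8, i9, hinj'', ρ', ?_, ?_⟩
  · intro ℓ hℓ hℓN hℓS A hA σ hσ
    rw [h1 ℓ hℓ hℓN (by exact_mod_cast hℓS) A hA σ hσ, s35asmA_eq χ ℓ hℓ hℓN hℓS]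
  · intro q hq hqlam hqM hq2 A hA σ hσ
    exact h3 q hq hqlam A hA σ hσ (hB q hq hqlam hqM hq2 A hA σ hσ)

/-- the factorisations `M = M' * q` with `q² ‖ M` -/
def S35asmSq (M' q : ℕ) : Prop := q ∣ M' ∧ ¬ q ^ 2 ∣ M'

/-- **S36 from named hypotheses** (conclusion = the frozen statement, verbatim; no residual
hypothesis needed). -/
theorem s36asm_main
    {M : ℕ} [NeZero M] (lam : ℕ) [Fact lam.Prime] (S : Finset ℕ)
    (O' : Type) [CommRing O'] [IsDomain O'] [IsDiscreteValuationRing O']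
    [IsAdicComplete (IsLocalRing.maximalIdeal O') O'] [Finite (IsLocalRing.ResidueField O')]
    [CharZero O'] (hlamO' : (lam : O') ∈ IsLocalRing.maximalIdeal O')
    (χ : CuspForm.heckeAlgebra M 2 (↑S : Set ℕ) →+* O')
    (hlamS : lam ∈ S) (hMS : ∀ q : ℕ, q.Prime → q ∣ M → q ∈ S)
    (Θ : ∀ n : ℕ, gasmPEHoms M (ZMod n) →+ JZero M)
    (hΘinj : ∀ n : ℕ, 0 < n → Function.Injective (Θ n))
    (hΘeq : ∀ n : ℕ, 0 < n → ∀ (ℓ : ℕ) [Fact ℓ.Prime] (hℓN : ¬ ℓ ∣ M) (_ : ¬ ℓ ∣ n)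
      (χ₁ χ' : gasmPEHoms M (ZMod n)),
      (χ' : s16lbAb M →+ ZMod n) = (χ₁ : s16lbAb M →+ ZMod n).comp (gasmTr M ℓ hℓN) →
        Θ n χ' = heckeOperatorBar M ⟨ℓ, Fact.out⟩ (Θ n χ₁))
    (hΘcompat : ∀ n d : ℕ, 0 < n → 0 < d → ∀ (a : gasmPEHoms M (ZMod n))
      (b : gasmPEHoms M (ZMod (n * d))),
      (∀ x : s16lbAb M, ∃ k : ℤ, (a : s16lbAb M →+ ZMod n) x = (k : ZMod n) ∧
        (b : s16lbAb M →+ ZMod (n * d)) x = ((d * k : ℤ) : ZMod (n * d))) →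
        Θ (n * d) b = Θ n a)
    (PEq : Set (s16lbAb M))
    -- NAT (vanishing half) for the factorisations with `q² ‖ M`
    (hNat : ∀ n : ℕ, 0 < n → ∀ χ₁ : gasmPEHoms M (ZMod n),
      (∀ s ∈ PEq, (χ₁ : s16lbAb M →+ ZMod n) s = 0) → Θ n χ₁ ∈ s35asmNewP S35asmSq M)
    -- NEW-0 (EXISTS-shape)
    (hNew0 : ∃ ω : s16lbAb M →+ FractionRing O', ω ≠ 0 ∧ (∀ s ∈ gadwPE M ∪ PEq, ω s = 0) ∧
      ∀ (ℓ : ℕ) [Fact ℓ.Prime] (hℓM : ¬ ℓ ∣ M) (hℓS : ℓ ∉ (↑S : Set ℕ)),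
        ω.comp (gasmTr M ℓ hℓM) =
          ((algebraMap O' (FractionRing O')).comp χ)
            (CuspForm.heckeAlgebra.T Fact.out hℓM hℓS) • ω)
    -- (Q) the geometric input: `q_new_fixed_kill`
    (hQ : ∀ q : ℕ, q.Prime → q ≠ lam → M.factorization q = 2 →
      ∃ A : ValuationSubring Qb, A.LiesOverPrime q ∧ ∃ c : ℕ, c ≠ 0 ∧
        ∀ x : JZero M, x ∈ s35asmNewP S35asmSq M → (∃ n : ℕ, lam ^ n • x = 0) →
          (∀ σ ∈ A.inertiaSubgroupIn ℚ, σ • x = x) → c • x = 0) :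
    ∃ (O'' : Type) (_ : CommRing O'') (_ : IsDomain O'') (_ : IsDiscreteValuationRing O'')
      (_ : IsAdicComplete (IsLocalRing.maximalIdeal O'') O'') (_ : Finite (IsLocalRing.ResidueField O''))
      (_ : CharZero O'') (_ : Algebra O' O'') (_ : Module.Finite O' O'') (_ : IsLocalHom (algebraMap O' O'')),
      Function.Injective (algebraMap O' O'') ∧
      ∃ ρ : GaloisRepAdic O'',
        (∀ (ℓ : ℕ) (hℓ : ℓ.Prime) (hℓM : ¬ ℓ ∣ M) (hℓS : ℓ ∉ (↑S : Set ℕ)),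
          ∀ A : ValuationSubring (AlgebraicClosure ℚ), A.LiesOverPrime ℓ →
            ∀ σ : AlgebraicClosure ℚ ≃ₐ[ℚ] AlgebraicClosure ℚ, A.IsFrobeniusAt σ ℓ →
              LinearMap.charpoly (ρ.ρ σ) =
                X ^ 2 - C (algebraMap O' O'' (χ (CuspForm.heckeAlgebra.T hℓ hℓM hℓS))) * X
                  + C ((ℓ : O''))) ∧
        (∀ q : ℕ, q.Prime → q ≠ lam → M.factorization q = 2 → ¬ ρ.IsUnipotentOnInertiaAt q) := by
  obtain ⟨𝒪'', i1, i2, i3, i4, i5, i6, i7, i8, i9, hinj'', ρ', h1, -, -, h4⟩ :=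
    s35asm_wiring lam S O' hlamO' χ hlamS hMS Θ hΘinj hΘeq hΘcompat (s35asmNewP S35asmSq M)
      (fun σ _ hx => s35asm_newP_smul_mem σ hx) PEq hNat hNew0
  refine ⟨𝒪'', i1, i2, i3, i4, i5, i6, i7, i8, i9, hinj'', ρ', ?_, ?_⟩
  · intro ℓ hℓ hℓN hℓS A hA σ hσ
    rw [h1 ℓ hℓ hℓN (by exact_mod_cast hℓS) A hA σ hσ, s35asmA_eq χ ℓ hℓ hℓN hℓS]
  · intro q hq hqlam hq2 huni
    obtain ⟨A, hA, c, hc0, hc⟩ := hQ q hq hqlam hq2
    exact h4 q hq hqlam A hA ⟨c, hc0, hc⟩ (fun σ hσ => huni A hA σ hσ)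

/-! ### the boxes and the frozen statements -/

/-- **the Kummer box** (NAT + NEW-0) for a character `χ` of the `S`-anemic Hecke algebra and a
subgroup `K₀` of "new" classes: a Kummer family `Θ` (the three clauses of `gad_theta_family`) and a
set `PEq` of old classes such that characters killing `PEq` have Kummer classes in `K₀` (NAT,
vanishing half) and ONE nonzero eigencharacter with the system of `χ` kills `PE ∪ PEq` (NEW-0). -/
def S35asmKummerBox (M : ℕ) [NeZero M] (S : Finset ℕ) (O' : Type) [CommRing O']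
    (χ : CuspForm.heckeAlgebra M 2 (↑S : Set ℕ) →+* O') (K₀ : AddSubgroup (JZero M)) : Prop :=
  ∃ Θ : ∀ n : ℕ, gasmPEHoms M (ZMod n) →+ JZero M,
    (∀ n : ℕ, 0 < n → Function.Injective (Θ n)) ∧
    (∀ n : ℕ, 0 < n → ∀ (ℓ : ℕ) [Fact ℓ.Prime] (hℓN : ¬ ℓ ∣ M) (_ : ¬ ℓ ∣ n)
      (χ₁ χ' : gasmPEHoms M (ZMod n)),
      (χ' : s16lbAb M →+ ZMod n) = (χ₁ : s16lbAb M →+ ZMod n).comp (gasmTr M ℓ hℓN) →
        Θ n χ' = heckeOperatorBar M ⟨ℓ, Fact.out⟩ (Θ n χ₁)) ∧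
    (∀ n d : ℕ, 0 < n → 0 < d → ∀ (a : gasmPEHoms M (ZMod n))
      (b : gasmPEHoms M (ZMod (n * d))),
      (∀ x : s16lbAb M, ∃ k : ℤ, (a : s16lbAb M →+ ZMod n) x = (k : ZMod n) ∧
        (b : s16lbAb M →+ ZMod (n * d)) x = ((d * k : ℤ) : ZMod (n * d))) →
        Θ (n * d) b = Θ n a) ∧
    ∃ PEq : Set (s16lbAb M),
      (∀ n : ℕ, 0 < n → ∀ χ₁ : gasmPEHoms M (ZMod n),
        (∀ s ∈ PEq, (χ₁ : s16lbAb M →+ ZMod n) s = 0) → Θ n χ₁ ∈ K₀) ∧
      ∃ ω : s16lbAb M →+ FractionRing O', ω ≠ 0 ∧ (∀ s ∈ gadwPE M ∪ PEq, ω s = 0) ∧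
        ∀ (ℓ : ℕ) [Fact ℓ.Prime] (hℓM : ¬ ℓ ∣ M) (hℓS : ℓ ∉ (↑S : Set ℕ)),
          ω.comp (gasmTr M ℓ hℓM) =
            ((algebraMap O' (FractionRing O')).comp χ)
              (CuspForm.heckeAlgebra.T Fact.out hℓM hℓS) • ω

/-- **the kill box** (B''), at level `M' * q`: for every Frobenius lift `s` at `q ∤ M'`, `q ≠ λ`,
some power of `(s² - 1)(s² - q²)` kills the `λ`-power torsion of `ker α_* ⊓ ker φ_*`. -/
def S35asmKillBox (lam : ℕ) : Prop :=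
  ∀ (M' q : ℕ) [NeZero M'] [NeZero q], q.Prime → ¬ q ∣ M' → q ≠ lam →
    ∀ A : ValuationSubring Qb, A.LiesOverPrime q → ∀ s : GQ, A.IsFrobeniusAt s q →
      ∃ m : ℕ, ∀ x : JZero (M' * q), x ∈ s35asmNewAt M' q → (∃ n : ℕ, lam ^ n • x = 0) →
        (s35asmPhi (DistribMulAction.toAddMonoidEnd GQ (JZero (M' * q)) s) q ^ m) x = 0

/-- **the fixed-kill box** (Q) `q_new_fixed_kill`, at level `M' * q` with `q ‖ M'`: some place
`A | q` and some `c ≠ 0` such that `c` kills the `I_A`-fixed `λ`-power torsion of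
`ker α_* ⊓ ker φ_*`. -/
def S36asmKillBox (lam : ℕ) : Prop :=
  ∀ (M' q : ℕ) [NeZero M'] [NeZero q], q.Prime → q ∣ M' → ¬ q ^ 2 ∣ M' → q ≠ lam →
    ∃ A : ValuationSubring Qb, A.LiesOverPrime q ∧ ∃ c : ℕ, c ≠ 0 ∧
      ∀ x : JZero (M' * q), x ∈ s35asmNewAt M' q → (∃ n : ℕ, lam ^ n • x = 0) →
        (∀ σ ∈ A.inertiaSubgroupIn ℚ, σ • x = x) → c • x = 0

/-- **the frozen statement S35 from the two boxes.** -/
theorem s35asm_frozen
    {M : ℕ} [NeZero M] (lam : ℕ) [Fact lam.Prime] (S : Finset ℕ)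
    (O' : Type) [CommRing O'] [IsDomain O'] [IsDiscreteValuationRing O']
    [IsAdicComplete (IsLocalRing.maximalIdeal O') O'] [Finite (IsLocalRing.ResidueField O')]
    [CharZero O'] (hlamO' : (lam : O') ∈ IsLocalRing.maximalIdeal O')
    (chig : CuspForm.heckeAlgebra M 2 (↑S : Set ℕ) →+* ℂ)
    (iota : chig.range →+* O')
    (hlamS : lam ∈ S) (hMS : ∀ q : ℕ, q.Prime → q ∣ M → q ∈ S)
    (hK : S35asmKummerBox M S O' (iota.comp chig.rangeRestrict) (s35asmNew M))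
    (hB : S35asmKillBox lam) :
    ∃ (O'' : Type) (_ : CommRing O'') (_ : IsDomain O'') (_ : IsDiscreteValuationRing O'')
      (_ : IsAdicComplete (IsLocalRing.maximalIdeal O'') O'') (_ : Finite (IsLocalRing.ResidueField O''))
      (_ : CharZero O'') (_ : Algebra O' O'') (_ : Module.Finite O' O'') (_ : IsLocalHom (algebraMap O' O'')),
      Function.Injective (algebraMap O' O'') ∧
      ∃ ρ : GaloisRepAdic O'',
        (∀ (ℓ : ℕ) (hℓ : ℓ.Prime) (hℓM : ¬ ℓ ∣ M) (hℓS : ℓ ∉ (↑S : Set ℕ)),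
          ∀ A : ValuationSubring (AlgebraicClosure ℚ), A.LiesOverPrime ℓ →
            ∀ σ : AlgebraicClosure ℚ ≃ₐ[ℚ] AlgebraicClosure ℚ, A.IsFrobeniusAt σ ℓ →
              LinearMap.charpoly (ρ.ρ σ) =
                X ^ 2 - C (algebraMap O' O'' ((iota.comp chig.rangeRestrict) (CuspForm.heckeAlgebra.T hℓ hℓM hℓS))) * X
                  + C ((ℓ : O''))) ∧
        (∀ q : ℕ, q.Prime → q ≠ lam → q ∣ M → ¬ q ^ 2 ∣ M →
          ∀ A : ValuationSubring (AlgebraicClosure ℚ), A.LiesOverPrime q →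
            ∀ σ : AlgebraicClosure ℚ ≃ₐ[ℚ] AlgebraicClosure ℚ, A.IsFrobeniusAt σ q →
              LinearMap.charpoly (ρ.ρ σ) = X ^ 2 - C ((q : O'') + 1) * X + C ((q : O'')) ∨
              LinearMap.charpoly (ρ.ρ σ) = X ^ 2 + C ((q : O'') + 1) * X + C ((q : O''))) := by
  obtain ⟨Θ, hΘinj, hΘeq, hΘcompat, PEq, hNat, hNew0⟩ := hK
  exact s35asm_main lam S O' hlamO' (iota.comp chig.rangeRestrict) hlamS hMS Θ hΘinj hΘeq
    hΘcompat PEq hNat hNew0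
    (s35asm_hB_of_at lam
      (fun M' q _ _ _ hq hqM' hqlam A hA s hs => hB M' q hq hqM' hqlam A hA s hs) (NeZero.ne M))

/-- **the frozen statement S36 from the two boxes** (the residual hypothesis `hres` of the frozen
statement is not needed). -/
theorem s36asm_frozen
    {M : ℕ} [NeZero M] (lam : ℕ) [Fact lam.Prime] (S : Finset ℕ)
    (O' : Type) [CommRing O'] [IsDomain O'] [IsDiscreteValuationRing O']
    [IsAdicComplete (IsLocalRing.maximalIdeal O') O'] [Finite (IsLocalRing.ResidueField O')]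
    [CharZero O'] (hlamO' : (lam : O') ∈ IsLocalRing.maximalIdeal O')
    (chig : CuspForm.heckeAlgebra M 2 (↑S : Set ℕ) →+* ℂ)
    (iota : chig.range →+* O')
    (hlamS : lam ∈ S) (hMS : ∀ q : ℕ, q.Prime → q ∣ M → q ∈ S)
    (hK : S35asmKummerBox M S O' (iota.comp chig.rangeRestrict) (s35asmNewP S35asmSq M))
    (hQ : S36asmKillBox lam) :
    ∃ (O'' : Type) (_ : CommRing O'') (_ : IsDomain O'') (_ : IsDiscreteValuationRing O'')
      (_ : IsAdicComplete (IsLocalRing.maximalIdeal O'') O'') (_ : Finite (IsLocalRing.ResidueField O''))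
      (_ : CharZero O'') (_ : Algebra O' O'') (_ : Module.Finite O' O'') (_ : IsLocalHom (algebraMap O' O'')),
      Function.Injective (algebraMap O' O'') ∧
      ∃ ρ : GaloisRepAdic O'',
        (∀ (ℓ : ℕ) (hℓ : ℓ.Prime) (hℓM : ¬ ℓ ∣ M) (hℓS : ℓ ∉ (↑S : Set ℕ)),
          ∀ A : ValuationSubring (AlgebraicClosure ℚ), A.LiesOverPrime ℓ →
            ∀ σ : AlgebraicClosure ℚ ≃ₐ[ℚ] AlgebraicClosure ℚ, A.IsFrobeniusAt σ ℓ →
              LinearMap.charpoly (ρ.ρ σ) =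
                X ^ 2 - C (algebraMap O' O'' ((iota.comp chig.rangeRestrict) (CuspForm.heckeAlgebra.T hℓ hℓM hℓS))) * X
                  + C ((ℓ : O''))) ∧
        (∀ q : ℕ, q.Prime → q ≠ lam → M.factorization q = 2 → ¬ ρ.IsUnipotentOnInertiaAt q) := by
  obtain ⟨Θ, hΘinj, hΘeq, hΘcompat, PEq, hNat, hNew0⟩ := hK
  refine s36asm_main lam S O' hlamO' (iota.comp chig.rangeRestrict) hlamS hMS Θ hΘinj hΘeq
    hΘcompat PEq hNat hNew0 ?_
  intro q hq hqlam hq2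
  -- `M = M' * q` with `q ‖ M'`
  have hM0 : M ≠ 0 := NeZero.ne M
  have hqq : q ^ 2 ∣ M := (hq.pow_dvd_iff_le_factorization hM0).mpr (by rw [hq2])
  have hq3 : ¬ q ^ 3 ∣ M := fun h => by
    have := (hq.pow_dvd_iff_le_factorization hM0).mp h
    omega
  obtain ⟨M', rfl⟩ : ∃ M', M = M' * q :=
    ⟨M / q, (Nat.div_mul_cancel (dvd_trans (dvd_pow_self q two_ne_zero) hqq)).symm⟩
  have hM'0 : M' ≠ 0 := fun h => hM0 (by rw [h, zero_mul])
  have hqM' : q ∣ M' := by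
    obtain ⟨c, hc⟩ := hqq
    refine ⟨c, ?_⟩
    have : M' * q = q * c * q := by rw [hc]; ring
    exact Nat.eq_of_mul_eq_mul_right hq.pos this
  have hq2M' : ¬ q ^ 2 ∣ M' := by
    rintro ⟨c, rfl⟩
    exact hq3 ⟨c, by ring⟩
  haveI : NeZero M' := ⟨hM'0⟩
  haveI : NeZero q := ⟨hq.ne_zero⟩
  obtain ⟨A, hA, c, hc0, hc⟩ := hQ M' q hq hqM' hq2M' hqlam
  refine ⟨A, hA, c, hc0, fun x hx hxt hfix => hc x ?_ hxt hfix⟩
  have := (mem_s35asmNewP.mp hx) M' q rfl hq hM'0 ⟨hqM', hq2M'⟩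
  simpa using this

end Fermat.Agent.G
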